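import Mathlib
import Fermat.Prelude.Def_GaloisRep_Adic
import Fermat.Agent.S53.DictSchur

/-!
# S59 / G4 / DESC (helper307): absolute irreducibility in matrix terms

* `HasEigenline m` : the matrices `m σ` have a common eigenvector.
* `toRes_isIrreducible_iff` : irreducibility of a matrix residual representation.
* `absIrr_iff_of_isEquiv`   : absolute irreducibility = no common eigenvector over `k̄`.
* `isIrreducible_of_absIrr` : absolutely irreducible implies irreducible.
* `residual_absIrr_of_baseChange` : if `ρ ⊗ O ≅ ρ'` and `ρ'` is residually absolutely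
  irreducible, so is `ρ`.
-/

set_option autoImplicit false
set_option linter.unusedSectionVars false
set_option linter.unusedVariables false
set_option linter.unusedSimpArgs false

noncomputable section

namespace Fermat.Agent.S59.G4.H307

open scoped TensorProduct
open Matrix Fermat.Agent.S53

section Eigen

variable {k : Type} [Field k]

/-- The matrices `m σ` have a common eigenvector. -/
def HasEigenline (m : GQ → M2 k) : Prop :=
  ∃ v : Fin 2 → k, v ≠ 0 ∧ ∀ σ, ∃ c : k, (m σ).mulVec v = c • v

theorem HasEigenline.map {k' : Type} [Field k'] (φ : k →+* k') {m : GQ → M2 k}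
    (h : HasEigenline m) : HasEigenline (fun σ => (m σ).map φ) := by
  obtain ⟨v, hv, hm⟩ := h
  refine ⟨fun i => φ (v i), ?_, fun σ => ?_⟩
  · intro h0
    apply hv
    ext i
    have := congrFun h0 i
    apply φ.injective
    rw [Pi.zero_apply, map_zero]
    exact this
  · obtain ⟨c, hc⟩ := hm σ
    refine ⟨φ c, ?_⟩
    ext i
    have := congrArg φ (congrFun hc i)
    simp only [Matrix.mulVec, dotProduct, Pi.smul_apply, smul_eq_mul, map_sum, map_mul,
      Matrix.map_apply] at this ⊢
    exact this

theorem toRes_isIrreducible_iff (rb : GQ →* M2 k) (h : GaloisFactorsThroughFiniteLevel rb) :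
    (toRes rb h).IsIrreducible ↔ ¬ HasEigenline rb := by
  constructor
  · rintro hirr ⟨v, hv, hm⟩
    have hirr' : ∀ W : Submodule k (Fin 2 → k),
        (∀ σ : GQ, ∀ x ∈ W, (rb σ).mulVec x ∈ W) → W = ⊥ ∨ W = ⊤ := hirr
    rcases hirr' (Submodule.span k {v}) (by
      intro σ x hx
      obtain ⟨a, rfl⟩ := Submodule.mem_span_singleton.mp hx
      obtain ⟨c, hc⟩ := hm σ
      rw [Matrix.mulVec_smul, hc]
      exact Submodule.smul_mem _ _ (Submodule.smul_mem _ _ (Submodule.mem_span_singleton_self _)))
      with hW | hW
    · have : v ∈ Submodule.span k {v} := Submodule.mem_span_singleton_self _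
      rw [hW] at this
      exact hv ((Submodule.mem_bot k).mp this)
    · have h1 : Module.finrank k (Submodule.span k {v}) = 1 := finrank_span_singleton hv
      rw [hW, finrank_top, Module.finrank_fin_fun] at h1
      omega
  · intro hne
    have key : ∀ W : Submodule k (Fin 2 → k),
        (∀ σ : GQ, ∀ x ∈ W, (rb σ).mulVec x ∈ W) → W = ⊥ ∨ W = ⊤ := by
      intro W hW
      by_contra hcon
      rw [not_or] at hcon
      obtain ⟨hbot, htop⟩ := hcon
      have h1 : 0 < Module.finrank k W := by
        haveI : Nontrivial W := (Submodule.nontrivial_iff_ne_bot).mpr hbot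
        exact Module.finrank_pos
      have h2 : Module.finrank k W < Module.finrank k (Fin 2 → k) :=
        Submodule.finrank_lt htop
      rw [Module.finrank_fin_fun] at h2
      have h3 : Module.finrank k W = 1 := by omega
      obtain ⟨w, hw, hall⟩ := finrank_eq_one_iff'.mp h3
      apply hne
      refine ⟨(w : Fin 2 → k), fun h0 => hw (Subtype.ext h0), fun σ => ?_⟩
      obtain ⟨c, hc⟩ := hall ⟨(rb σ).mulVec (w : Fin 2 → k), hW σ _ w.2⟩
      refine ⟨c, ?_⟩
      have := congrArg Subtype.val hc
      exact this.symm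
    exact key

/-- Absolute irreducibility in matrix terms. -/
theorem absIrr_iff_of_isEquiv (ρbar : ResidualGaloisRep k) (rb : GQ →* M2 k)
    (h : GaloisFactorsThroughFiniteLevel rb) (he : ρbar.IsEquiv (toRes rb h)) :
    ρbar.IsAbsolutelyIrreducible ↔
      ¬ HasEigenline (mapRep (algebraMap k (AlgebraicClosure k)) rb) := by
  obtain ⟨e⟩ := he
  obtain ⟨e'⟩ := baseChange_toRes (AlgebraicClosure k) rb h
  have E := (resEquivBaseChange (AlgebraicClosure k) e).trans e'
  rw [← toRes_isIrreducible_iff _ (factors_mapRep (algebraMap k (AlgebraicClosure k)) h)]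
  exact ⟨fun hh => isIrreducible_of_equiv E hh, fun hh => isIrreducible_of_equiv E.symm hh⟩

/-- Absolutely irreducible implies irreducible. -/
theorem isIrreducible_of_absIrr (ρbar : ResidualGaloisRep k)
    (h : ρbar.IsAbsolutelyIrreducible) : ρbar.IsIrreducible := by
  obtain ⟨rb, hrb, he⟩ := exists_toRes ρbar
  have h1 := (absIrr_iff_of_isEquiv ρbar rb hrb he).mp h
  have h2 : ¬ HasEigenline rb := fun hE => h1 (hE.map (algebraMap k (AlgebraicClosure k)))
  have h3 := (toRes_isIrreducible_iff rb hrb).mpr h2
  obtain ⟨e⟩ := he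
  exact isIrreducible_of_equiv e.symm h3

end Eigen

section BaseChange

open IsLocalRing

variable {T O : Type} [CommRing T] [IsLocalRing T] [CommRing O] [IsLocalRing O]

/-- If `ρ ⊗ O ≅ ρ'` and `ρ'` is residually absolutely irreducible, so is `ρ`. -/
theorem residual_absIrr_of_baseChange (ψ : T →+* O) (hψ : IsLocalHom ψ) (ρ : GaloisRepAdic T)
    (ρ' : GaloisRepAdic O) (h : (ρ.baseChangeAlong ψ hψ).IsEquiv ρ')
    (habs : ρ'.residual.IsAbsolutelyIrreducible) : ρ.residual.IsAbsolutelyIrreducible := by
  have := hψ
  obtain ⟨r, hr, ⟨e0⟩⟩ := exists_toAdic ρ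
  obtain ⟨e1⟩ := residual_toAdic r hr
  have hρ : ρ.residual.IsEquiv (toRes (mapRep (residue T) r) hr.factors_residue) :=
    ⟨e0.residual.trans e1⟩
  obtain ⟨e2⟩ := baseChangeAlong_toAdic ψ hψ r hr
  obtain ⟨e3⟩ := h
  have e4 : GaloisRepAdic.Equiv ρ' (toAdic (mapRep ψ r) (hr.map ψ hψ)) :=
    (e3.symm.trans (e0.baseChangeAlong ψ hψ)).trans e2
  obtain ⟨e5⟩ := residual_toAdic (mapRep ψ r) (hr.map ψ hψ)
  have hρ' : ρ'.residual.IsEquiv
      (toRes (mapRep (residue O) (mapRep ψ r)) (hr.map ψ hψ).factors_residue) :=
    ⟨e4.residual.trans e5⟩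
  rw [absIrr_iff_of_isEquiv _ _ _ hρ]
  have h' := (absIrr_iff_of_isEquiv _ _ _ hρ').mp habs
  intro hE
  apply h'
  let _ : Algebra (ResidueField T) (AlgebraicClosure (ResidueField O)) :=
    ((algebraMap (ResidueField O) (AlgebraicClosure (ResidueField O))).comp
      (ResidueField.map ψ)).toAlgebra
  let j : AlgebraicClosure (ResidueField T) →ₐ[ResidueField T]
      AlgebraicClosure (ResidueField O) := IsAlgClosed.lift
  have hj := hE.map (j : AlgebraicClosure (ResidueField T) →+*
    AlgebraicClosure (ResidueField O))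
  have hfun : (fun σ => ((mapRep (algebraMap (ResidueField T)
      (AlgebraicClosure (ResidueField T))) (mapRep (residue T) r)) σ).map
        (j : AlgebraicClosure (ResidueField T) →+* AlgebraicClosure (ResidueField O))) =
      (mapRep (algebraMap (ResidueField O) (AlgebraicClosure (ResidueField O)))
        (mapRep (residue O) (mapRep ψ r))) := by
    funext σ
    ext a b
    simp only [mapRep_apply, Matrix.map_apply]
    have h1 : (j : AlgebraicClosure (ResidueField T) →+* AlgebraicClosure (ResidueField O))
        (algebraMap (ResidueField T) (AlgebraicClosure (ResidueField T))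
          (residue T (r σ a b))) =
        algebraMap (ResidueField T) (AlgebraicClosure (ResidueField O))
          (residue T (r σ a b)) := j.commutes _
    rw [h1]
    show (algebraMap (ResidueField O) (AlgebraicClosure (ResidueField O)))
      (ResidueField.map ψ (residue T (r σ a b))) = _
    rw [ResidueField.map_residue]
  rw [hfun] at hj
  exact hj

end BaseChange

end Fermat.Agent.S59.G4.H307
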