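import Mathlib
import Fermat.Prelude.Def_GaloisRep_Adic
import Fermat.Prelude.Def_GaloisRep_ComplexConjugation
import Fermat.Agent.S59.G4.Spec
import Fermat.Agent.S59.H307.Glue
import Fermat.Agent.S59.G4.H307.AbsIrr

/-!
# S59 / G4 / DESC (helper307): `descent : G4.DescentStatement`

Wiles' descent of the representations at a strict family of points of `T` to a representation
over `T`, in the exact shape of `Fermat/Agent/S59/G4/Spec.lean`.

Proof: `Fermat.Agent.S59.H307.exists_glued_rep_of_hausdorff` (GLUE) with `c` = complex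
conjugation (`c ≠ 1`, so `det ρ_P(c) = -1`, hence `tr ρ_P(c) = 0`), `2 ∈ Tˣ` since `p` is odd and
the points are local, and `residual_absIrr_of_baseChange` for the absolute irreducibility of the
reduction.
-/

set_option autoImplicit false
set_option linter.unusedSectionVars false
set_option linter.unusedVariables false
set_option linter.unusedSimpArgs false
set_option linter.style.haveILetI false

noncomputable section

namespace Fermat.Agent.S59.G4.H307

open scoped TensorProduct
open Matrix Polynomial IsLocalRing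
open Fermat.Agent.S31 Fermat.Agent.S59.G4 Fermat.Agent.S59.H307

/-- Complex conjugation is not the identity of `ℚ̄`. -/
theorem complexConjugation_ne_one : complexConjugation ≠ 1 := by
  intro h
  obtain ⟨x, hx⟩ := IsAlgClosed.exists_pow_nat_eq (-1 : AlgebraicClosure ℚ) (n := 2) (by norm_num)
  have h1 := complexEmbedding_complexConjugation x
  rw [h, AlgEquiv.one_apply] at h1
  have hz : (complexEmbedding x) ^ 2 = -1 := by
    rw [← map_pow, hx, map_neg, map_one]
  obtain ⟨r, hr⟩ := Complex.conj_eq_iff_real.mp h1.symm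
  rw [hr] at hz
  have h2 : (r : ℂ) ^ 2 = ((r ^ 2 : ℝ) : ℂ) := by push_cast; ring
  rw [h2] at hz
  have h3 : (r ^ 2 : ℝ) = -1 := by exact_mod_cast hz
  nlinarith [sq_nonneg r]

section TraceZero

variable {A : Type} [CommRing A] [IsLocalRing A]

/-- An involution with determinant `-1` has trace `0`. -/
theorem trace_eq_zero_of_det_eq_neg_one (ρ : GaloisRepAdic A) (c : GalQ) (hcc : c * c = 1)
    (hdet : LinearMap.det (ρ.ρ c) = -1) : ρ.trace c = 0 := by
  obtain ⟨e, m, h⟩ := exists_realizes ρ
  rw [h.trace_eq]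
  have hconj : e.conj (ρ.ρ c) =
      (e : ρ.V →ₗ[A] (Fin 2 → A)) ∘ₗ (ρ.ρ c) ∘ₗ (e.symm : (Fin 2 → A) →ₗ[A] ρ.V) := by
    rw [LinearEquiv.conj_apply, LinearMap.comp_assoc]
  have hdet' : (m c).det = -1 := by
    rw [← hdet, ← LinearMap.det_conj (ρ.ρ c) e, ← hconj, h.conj_eq, LinearMap.det_toLin']
  have hsq : m c * m c = 1 := by rw [← map_mul, hcc, map_one]
  have h00 : m c 0 0 * m c 0 0 + m c 0 1 * m c 1 0 = 1 := by
    have := congrFun (congrFun hsq 0) 0
    rw [mat2_mul_apply] at this
    exact this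
  have h01 : m c 0 0 * m c 0 1 + m c 0 1 * m c 1 1 = 0 := by
    have := congrFun (congrFun hsq 0) 1
    rw [mat2_mul_apply] at this
    exact this
  rw [Matrix.det_fin_two] at hdet'
  rw [Matrix.trace_fin_two]
  linear_combination (m c 0 0) * hdet' + (m c 1 0) * h01 - (m c 1 1) * h00

end TraceZero

section Two

/-- `2` is a unit in a local ring containing an odd prime in its maximal ideal. -/
theorem isUnit_two_of_odd_mem {O : Type*} [CommRing O] [IsLocalRing O] {p : ℕ}
    (hp : p.Prime) (hp2 : p ≠ 2) (hpO : (p : O) ∈ maximalIdeal O) : IsUnit (2 : O) := by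
  by_contra h2
  have h2m : (2 : O) ∈ maximalIdeal O := (IsLocalRing.mem_maximalIdeal _).mpr h2
  obtain ⟨k, hk⟩ := (hp.eq_two_or_odd').resolve_left hp2
  have h1 : (1 : O) = (p : O) - 2 * (k : O) := by
    rw [hk]; push_cast; ring
  have h1m : (1 : O) ∈ maximalIdeal O := by
    rw [h1]
    exact Ideal.sub_mem _ hpO (Ideal.mul_mem_right _ _ h2m)
  exact (IsLocalRing.mem_maximalIdeal _).mp h1m isUnit_one

end Two

section Desc

variable {T : Type} [CommRing T] [IsLocalRing T]
  {ι : Type*} {O : ι → Type} [∀ i, CommRing (O i)] [∀ i, IsLocalRing (O i)]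

/-- Joint injectivity of a topologically separating family on a Hausdorff local ring. -/
theorem eq_zero_of_forall_map_eq_zero [IsHausdorff (maximalIdeal T) T]
    (ψ : ∀ i, T →+* O i)
    (htop : ∀ n : ℕ, ∃ (F : Finset ι) (n' : ℕ), ∀ t : T,
      (∀ i ∈ F, ψ i t ∈ maximalIdeal (O i) ^ n') → t ∈ maximalIdeal T ^ n)
    (t : T) (ht : ∀ i, ψ i t = 0) : t = 0 := by
  apply IsHausdorff.haus (I := maximalIdeal T) ‹_› t
  intro n
  obtain ⟨F, n', hF⟩ := htop n
  have : t ∈ maximalIdeal T ^ n :=
    hF t fun i _ => by rw [ht i]; exact Ideal.zero_mem _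
  rw [SModEq.zero, smul_eq_mul, Ideal.mul_top]
  exact this

end Desc

/-- **DESC**: the descent statement of layer G4. -/
theorem descent : DescentStatement := by
  intro p _ hp2 T _ _ _ _ F hF hstrict hloc hodd habs hτ
  classical
  obtain ⟨τ, hτ⟩ := hτ
  have hmem : ∀ i : Fin F.length, F.get i ∈ F := fun i => List.get_mem F i
  have hex : ∀ P ∈ F, ∃ i : Fin F.length, F.get i = P := fun P hP => List.get_of_mem hP
  have hlen : 0 < F.length := List.length_pos_iff.mpr hF
  let i₀ : Fin F.length := ⟨0, hlen⟩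
  have hψ : ∀ i : Fin F.length, IsLocalHom (F.get i).pt.χ := fun i => hloc _ (hmem i)
  -- `2` is a unit of `T`
  have h2 : IsUnit (2 : T) := by
    have := hψ i₀
    apply isUnit_of_map_unit (F.get i₀).pt.χ
    rw [map_ofNat]
    exact isUnit_two_of_odd_mem (Fact.out : p.Prime) hp2 (F.get i₀).pt.hp
  -- topological separation
  have htop : ∀ n : ℕ, ∃ (Fs : Finset (Fin F.length)) (n' : ℕ), ∀ t : T,
      (∀ i ∈ Fs, (F.get i).pt.χ t ∈ maximalIdeal (F.get i).pt.O ^ n') →
        t ∈ maximalIdeal T ^ n := by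
    intro n
    obtain ⟨n', hn'⟩ := hstrict n
    refine ⟨Finset.univ, n', fun t ht => hn' t ?_⟩
    intro P hP
    obtain ⟨Q, hQ, rfl⟩ := List.mem_map.mp hP
    obtain ⟨i, rfl⟩ := hex Q hQ
    exact ht i (Finset.mem_univ i)
  -- traces at complex conjugation
  have htr0 : ∀ i : Fin F.length, (F.get i).ρ.trace complexConjugation = 0 := fun i =>
    trace_eq_zero_of_det_eq_neg_one _ _ complexConjugation_mul_self
      (hodd _ (hmem i) complexConjugation complexConjugation_mul_self complexConjugation_ne_one)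
  have hτ' : ∀ (i : Fin F.length) (σ : GalQ), (F.get i).pt.χ (τ σ) = (F.get i).ρ.trace σ :=
    fun i σ => hτ _ (hmem i) σ
  have hτc : τ complexConjugation = 0 :=
    eq_zero_of_forall_map_eq_zero (O := fun i : Fin F.length => (F.get i).pt.O)
      (fun i => (F.get i).pt.χ) htop _ fun i => by rw [hτ', htr0]
  have hirr : ((F.get i₀).ρ).residual.IsIrreducible :=
    isIrreducible_of_absIrr _ (habs _ (hmem i₀))
  obtain ⟨ρ, -, hρ⟩ := exists_glued_rep_of_hausdorff (O := fun i : Fin F.length => (F.get i).pt.O)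
    h2 (fun i => (F.get i).pt.χ) hψ htop (fun i => (F.get i).ρ) τ hτ' complexConjugation
    complexConjugation_mul_self hτc i₀ hirr
  refine ⟨ρ, ?_, ?_⟩
  · intro P hP σ
    obtain ⟨i, rfl⟩ := hex P hP
    rw [← charpoly_baseChangeAlong _ (hψ i), charpoly_eq_of_isEquiv (hρ i)]
  · exact residual_absIrr_of_baseChange _ (hψ i₀) ρ _ (hρ i₀) (habs _ (hmem i₀))

end Fermat.Agent.S59.G4.H307
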